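/-
GATE-B / GB-PNEW, leaf (HC) (helper15): **`α_*`, `β_*` kill every component of the intertwiner on
the `p`-new part** — the binder `hcores` of helper44's (ANN).

The components of helper44's intertwiner `R` are `(R v)_ε = Dmap_ε (e_ε (extK v))`
(`Asm.extK`, `DiaRep.comp`, `DPlug.Dmap`).  For `v ∈ Hom(Γ_H(thQ θ' q), O)` killed by the two
degeneracy transfers `coresq`, `coresDq` at level `Γ_H` (helper83), every component is killed by
`GM.B.cores`, `GM.B.coresD` at the top level: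

* `hcores_of_new` : binder form (`coresq v = 0`, `coresDq v = 0`);
* `hcores_of_tower` : for every `IsLoc v` over a zero base (helper95 `new_of_tower`).
-/
import Mathlib
import Fermat.Agent.GB.B10.L2.ProjDegen
import Fermat.Agent.GE8.P3B.GB.B3.LocTransportInstD
import Fermat.Agent.GE8.P3B.StepGen
import Fermat.Agent.GE8.P3B.Ok3W

/- TWIN (helper6 B4 generator; conventions of helper24 / helper86) of `Fermat.Agent.GB.B10.L2.HCores` with `p ≠ 3` relaxed to `Ok3A Sy 𝔪 p` / `Ok3W p W` (RISK-5 fix (B), step B4); everything below lives in the wrapper namespace `Fermat.Agent.GE8.P3B`. -/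
set_option linter.dupNamespace false
open Fermat Fermat.Agent Fermat.Agent.GB Fermat.Agent.GB.B10 Fermat.Agent.GB.B10.L2 Fermat.Agent.GB.B10.L2.ProjDegen Fermat.Agent.GB.B3 Fermat.Agent.GB.B3.EisGamma0 Fermat.Agent.GB.B3.GamH Fermat.Agent.GB.B3.HeckeActH Fermat.Agent.GB.B3.RealLevel Fermat.Agent.GB.B3.TWChars Fermat.Agent.GB.B3.TWLevel Fermat.Agent.GB.B4 Fermat.Agent.GB.B4.Twist Fermat.Agent.GB.B4.Twist.Asm Fermat.Agent.GB.B4.Twist.Chain Fermat.Agent.GB.B4.Twist.ChainD Fermat.Agent.GB.B4.Twist.DPlug Fermat.Agent.GB.B4.Twist.RPsi Fermat.Agent.GB.B7 Fermat.Agent.GB.B7.UqSq Fermat.Agent.GM Fermat.Agent.GM.B Fermat.Agent.GM.EisClass Fermat.Agent.S16_helper49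

namespace Fermat.Agent.GE8.P3B

set_option autoImplicit false

open scoped MatrixGroups
open CongruenceSubgroup Matrix Matrix.SpecialLinearGroup
open P2MW.S_ModularForm_heckeT_slash_eq_self_of_mem_Gamma0.ModularForm.HeckeSlashInvariance
open S16_helper49 GM.B GM.EisClass
open GB.B3 GB.B3.EisGamma0 GB.B3.GamH
open GB.B4.Twist GB.B4.Twist.RPsi
open GB.B4.Twist.Chain GB.B4.Twist.ChainD GB.B4.Twist.DPlug
open GB.B4.Twist.Asm
open GB.B7.UqSq
open GB.B10.L2.ProjDegen

namespace GB.B10.L2.HCores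

section Binder

variable {N q N' : ℕ} [NeZero N] [NeZero (N * q)] [Fact q.Prime] {Δ : Type} [CommGroup Δ]
  [Fintype Δ] (θ' : (ZMod N)ˣ →* Δ) (hθq : Function.Surjective (thQ θ' q))
  {O : Type*} [CommRing O] {K : Type*} [Field K] [Algebra O K] (L : List (TwDatum K Δ))
  (h' : Adm (N * q) (thQ θ' q) L) (hqN : ¬ q ∣ N) (hqN' : ¬ q ∣ N')
  (rep' : Δ → Gamma0 (chainLevel (N * q) L))
  (hrep' : ∀ δ, chi (chainθ (N * q) (thQ θ' q) L) (rep' δ) = δ)
  (hlev : chainLevel (N * q) L = N' * q)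

omit [NeZero N] [NeZero (N * q)] [Fintype Δ] in
theorem coresq_extK (v : Additive (GammaH (thQ θ' q)) →+ O) :
    coresq θ' hqN K (extK (K := K) (GammaH (thQ θ' q)) v)
      = extK (K := K) (GammaH θ') (coresq θ' hqN O v) :=
  CosetSys.op_comp_hom _ _ v

omit [NeZero N] [NeZero (N * q)] [Fintype Δ] in
theorem coresDq_extK (v : Additive (GammaH (thQ θ' q)) →+ O) :
    coresDq θ' hqN K (extK (K := K) (GammaH (thQ θ' q)) v)
      = extK (K := K) (GammaH θ') (coresDq θ' hqN O v) :=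
  CosetSys.op_comp_hom _ _ v

/-- **(HC), binder form** -/
theorem hcores_of_new (ε : Δ →* Kˣ) (v : Additive (GammaH (thQ θ' q)) →+ O)
    (hα : coresq θ' hqN O v = 0) (hβ : coresDq θ' hqN O v = 0) :
    cores K hqN' (Dmap (thQ θ' q) L h' rep' hrep' hlev
        (DiaRep.comp (thQ θ' q) hθq ε (extK (K := K) (GammaH (thQ θ' q)) v))) = 0 ∧
      coresD K hqN' (Dmap (thQ θ' q) L h' rep' hrep' hlev
        (DiaRep.comp (thQ θ' q) hθq ε (extK (K := K) (GammaH (thQ θ' q)) v))) = 0 := by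
  constructor
  · refine cores_Dmap_comp_eq_zero θ' hθq L h' hqN hqN' rep' hrep' hlev ε _ ?_
    rw [coresq_extK, hα, map_zero]
  · refine coresD_Dmap_comp_eq_zero θ' hθq L h' hqN hqN' rep' hrep' hlev ε _ ?_
    rw [coresDq_extK, hβ, map_zero]

end Binder

/-! ### the instance over helper95's tower -/

section Tower

open GB.B3.TWLevel GB.B3.RealLevel
  GB.B3.HeckeActH GB.B3.TWChars GB.B3.FinalTW
  GB.B3.Tower GB.B3.StepInst GB.B3.LocTransport
  GB.B3.LocTransportInst GB.B3.LocTransportInstD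

variable {N q p N'' : ℕ} [NeZero N] [NeZero (N * q)] [Fact q.Prime] [hpF : Fact p.Prime]
  {Kk : ℕ} {r e N' : ℕ → ℕ}
variable (Sy : Symbols (N * q)) (hrN : ∀ j, Sy.r j ∣ N) (hqN : ¬ q ∣ N)
variable {O : Type} [CommRing O] [IsDomain O] [IsPrincipalIdealRing O] [IsLocalRing O]
  [IsAdicComplete (IsLocalRing.maximalIdeal O) O] [Module.IsTorsionFree ℤ O]
variable (𝔪 : Ideal (Sy.𝕋 O)) [𝔪.IsMaximal]
variable (H : PrimeData N p Kk r e N') {ϖ : O} {s0 : Sy.ι₁}
  (h : Plug.Hyp (restrict Sy hrN) 𝔪 p ϖ s0)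
variable {K : Type*} [Field K] [Algebra O K]

include h hqN in
/-- **(HC) over the tower**: if `Hom(Γ₀(N), O)_𝔪 = 0` then `α_*`, `β_*` kill every component
`Dmap_ε (e_ε (extK v))` of the intertwiner, for every `v` in the `𝔪`-primary part of
`Hom(Γ_H(thQ θ' q), O)`, `θ' = Theta (Δs p e) H.psi j` any stage of the tower -/
theorem hcores_of_tower
    (hbase : ∀ y : Additive (Gamma0 N) →+ O,
      IsLoc (HeckeActH.act0 (restrict Sy hrN) O) 𝔪 y → y = 0) (j : ℕ)
    (hθq : Function.Surjective (thQ (Theta (Δs p e) H.psi j) q))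
    (L : List (TwDatum K (∀ i : Fin j, Δs p e i)))
    (h' : Adm (N * q) (thQ (Theta (Δs p e) H.psi j) q) L) (hqN'' : ¬ q ∣ N'')
    (rep' : (∀ i : Fin j, Δs p e i) → Gamma0 (chainLevel (N * q) L))
    (hrep' : ∀ δ, chi (chainθ (N * q) (thQ (Theta (Δs p e) H.psi j) q) L) (rep' δ) = δ)
    (hlev : chainLevel (N * q) L = N'' * q) (ε : (∀ i : Fin j, Δs p e i) →* Kˣ)
    {v : Additive (GamH.GammaH (thQ (Theta (Δs p e) H.psi j) q)) →+ O}
    (hv : IsLoc (actH Sy O (thQ (Theta (Δs p e) H.psi j) q)) 𝔪 v) :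
    cores K hqN'' (Dmap (thQ (Theta (Δs p e) H.psi j) q) L h' rep' hrep' hlev
        (DiaRep.comp (thQ (Theta (Δs p e) H.psi j) q) hθq ε
          (extK (K := K) (GammaH (thQ (Theta (Δs p e) H.psi j) q)) v))) = 0 ∧
      coresD K hqN'' (Dmap (thQ (Theta (Δs p e) H.psi j) q) L h' rep' hrep' hlev
        (DiaRep.comp (thQ (Theta (Δs p e) H.psi j) q) hθq ε
          (extK (K := K) (GammaH (thQ (Theta (Δs p e) H.psi j) q)) v))) = 0 := by
  obtain ⟨h1, h2⟩ := new_of_tower Sy hrN hqN 𝔪 H h hbase j hv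
  exact HCores.hcores_of_new (Theta (Δs p e) H.psi j) hθq L h' hqN hqN'' rep' hrep' hlev ε v h1 h2

end Tower

end GB.B10.L2.HCores

end Fermat.Agent.GE8.P3B
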