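/-
GATE-B / GB-PNEW, seam (HC) ⟶ (ANN) (helper15): **the `hcores` binder of helper44's `Ann.ann`,
verbatim, and `ann` with all its "new" inputs discharged.**

Level `N q` (`q` the new prime, `q ∤ N`), `θ = thQ θ' q`, top level `N'' q` (`q ∤ N''`).  The two
coset systems out of `Γ₀(N'' q)` are `coresSys' hqN''`, `coresDSys' hqN''` (GATE-M), whose `op`
are `cores`, `coresD`; the sub-lattice is helper32's `ThetaNew.LamNew hqN''`.

* `hcores_ann_of_new` : `hcores` of `Ann.ann` for any `MQ` of classes killed by `coresq`,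
  `coresDq` (the transfers at level `Γ_H`);
* `hcores_ann_of_tower` : `hcores` of `Ann.ann` for any `MQ` of `𝔪`-primary classes over a zero
  base (helper95 `new_of_tower`);
* `ann_of_new`, `ann_of_tower` : `Ann.ann` with `S₁ S₂ Λ' hΛ hcores` discharged.
-/
import Mathlib
import Fermat.Agent.GE8.P3B.GB.B10.L2.HCores
import Fermat.Agent.GE8.P3B.GB.B10.L.Ann
import Fermat.Agent.GB.B10.L.ThetaNew
import Fermat.Agent.GE8.P3B.StepGen
import Fermat.Agent.GE8.P3B.Ok3W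

/- TWIN (helper6 B4 generator; conventions of helper24 / helper86) of `Fermat.Agent.GB.B10.L2.HCoresAnn` with `p ≠ 3` relaxed to `Ok3A Sy 𝔪 p` / `Ok3W p W` (RISK-5 fix (B), step B4); everything below lives in the wrapper namespace `Fermat.Agent.GE8.P3B`. -/
set_option linter.dupNamespace false
open Fermat Fermat.Agent Fermat.Agent.GB Fermat.Agent.GB.B10 Fermat.Agent.GB.B10.L Fermat.Agent.GB.B10.L.ThetaNew Fermat.Agent.GB.B10.L2 Fermat.Agent.GB.B3 Fermat.Agent.GB.B3.EisGamma0 Fermat.Agent.GB.B3.GamH Fermat.Agent.GB.B3.HeckeActH Fermat.Agent.GB.B3.RealLevel Fermat.Agent.GB.B3.TWChars Fermat.Agent.GB.B3.TWLevel Fermat.Agent.GB.B4 Fermat.Agent.GB.B4.Datum Fermat.Agent.GB.B4.Datum.ImageRing Fermat.Agent.GB.B4.Twist Fermat.Agent.GB.B4.Twist.Asm Fermat.Agent.GB.B4.Twist.Chain Fermat.Agent.GB.B4.Twist.ChainD Fermat.Agent.GB.B4.Twist.Coeff Fermat.Agent.GB.B7 Fermat.Agent.GB.B7.UqSq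 Fermat.Agent.GJ Fermat.Agent.GJ.J2 Fermat.Agent.GJ.J2.Lat Fermat.Agent.GJ.J2.LatAct Fermat.Agent.GJ.J2.ZStruct Fermat.Agent.GM Fermat.Agent.GM.B Fermat.Agent.S16_helper49

namespace Fermat.Agent.GE8.P3B

set_option autoImplicit false
set_option linter.unusedSectionVars false

noncomputable section

open scoped MatrixGroups TensorProduct
open CongruenceSubgroup Matrix Matrix.SpecialLinearGroup ModularCurve.Period CuspForm
open S16_helper49 GM.B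
open GB.B3 GB.B3.EisGamma0 GB.B3.GamH
open GJ.J2.ZStruct GJ.J2.Lat GJ.J2.LatAct
open GB.B4.Twist.Chain GB.B4.Twist.ChainD
open GB.B4.Twist.Asm GB.B4.Twist.Coeff GB.B4.Twist.TwR
open GB.B4.Datum.ImageRing
open GB.B7.UqSq
open GB.B10.L.Ann GB.B10.L.ThetaNew
open GB.B10.L2.HCores

namespace GB.B10.L2.HCoresAnn

section Binder

variable {N q N'' : ℕ} [NeZero N] [NeZero (N * q)] [NeZero (N'' * q)] [Fact q.Prime]
  {Δ : Type} [CommGroup Δ] [Fintype Δ]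
  (θ' : (ZMod N)ˣ →* Δ) (hθq : Function.Surjective (thQ θ' q))
  {O : Type} [CommRing O] {K : Type} [Field K] [CharZero K] [Algebra O K]
  [Fintype (Δ →* Kˣ)] [HasEnoughRootsOfUnity K (Monoid.exponent Δ)]
  (hqN : ¬ q ∣ N) (hqN'' : ¬ q ∣ N'')
  (Lε : (Δ →* Kˣ) → List (TwDatum K Δ))
  (hadm : ∀ ε, Adm (N * q) (thQ θ' q) (Lε ε)) (hlev : ∀ ε, chainLevel (N * q) (Lε ε) = N'' * q)
  (rep' : ∀ ε, Δ → Gamma0 (chainLevel (N * q) (Lε ε)))
  (hrep' : ∀ ε δ, chi (chainθ (N * q) (thQ θ' q) (Lε ε)) (rep' ε δ) = δ)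

/-- **the `hcores` binder of `Ann.ann`**, for classes killed by the two transfers at level `Γ_H` -/
theorem hcores_ann_of_new (MQ : Set ↥(parabolicHoms O (GammaH (thQ θ' q)) O))
    (hMQ : ∀ v ∈ MQ, coresq θ' hqN O (v : Additive (GammaH (thQ θ' q)) →+ O) = 0 ∧
      coresDq θ' hqN O (v : Additive (GammaH (thQ θ' q)) →+ O) = 0) :
    ∀ v ∈ MQ, ∀ ε : Δ →* Kˣ,
      (coresSys' hqN'').op K (RChainComp (thQ θ' q) hθq Lε hadm hlev rep' hrep' ε v) = 0 ∧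
      (coresDSys' hqN'').op K (RChainComp (thQ θ' q) hθq Lε hadm hlev rep' hrep' ε v) = 0 :=
  fun v hv ε => hcores_of_new θ' hθq (Lε ε) (hadm ε) hqN hqN'' (rep' ε) (hrep' ε) (hlev ε) ε
    (v : Additive (GammaH (thQ θ' q)) →+ O) (hMQ v hv).1 (hMQ v hv).2

/-- local instance (Prop-valued class) -/
local instance factPrimeOff15 {S : Set ℕ} (l : PrimesOff S) : Fact (l.1 : ℕ).Prime := ⟨l.1.2⟩

include hθq hadm hlev rep' hrep' in
/-- **`Ann.ann` with `S₁ S₂ Λ' hΛ hcores` discharged** (`Λ' := ThetaNew.LamNew hqN''`): every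
`t₀ ∈ O ⊗ heckeAlgebra (N'' q) 2 S` killing `O ⊗ LamNew` kills the classes of `MQ`. -/
theorem ann_of_new [NeZero N''] [IsLocalRing O] (S : Finset ℕ) (hqS : q ∈ S)
    (hNS : ∀ l : ℕ, l.Prime → l ∣ N'' * q → l ∈ S) (hNN' : N * q ∣ N'' * q)
    (hinj : Function.Injective (algebraMap O K))
    (dℓ : PrimesOff (↑S : Set ℕ) → Gamma0 (N * q))
    (hsq : ∀ ε, ∀ d ∈ Lε ε, ¬ d.r ^ 2 ∣ N * q)
    (hnd : ∀ ε, (Lε ε).Pairwise (fun d e => d.r ≠ e.r))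
    (hψ : ∀ ε, ∀ d ∈ Lε ε, (∀ v : (ZMod d.r)ˣ, d.ψ (v : ZMod d.r) = 1) ∨
      ∃ v : (ZMod d.r)ˣ, d.ψ (v : ZMod d.r) ^ 2 ≠ 1)
    (hν : ∀ (ε : Δ →* Kˣ) (δ : Δ), ((Lε ε).map (fun d => d.ν)).prod δ = ε δ)
    (hc : ∀ (ε : Δ →* Kˣ) (l : PrimesOff (↑S : Set ℕ)),
      ((ε (chi (thQ θ' q) (dℓ l)) : Kˣ) : K) * chainPsi (Lε ε) (l.1 : ℕ) = 1)
    (tw : ↥(heckeAlgebra (N'' * q) 2 (↑S : Set ℕ)) →+*
      Module.End O ↥(parabolicHoms O (GammaH (thQ θ' q)) O))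
    (htw : ∀ (l : PrimesOff (↑S : Set ℕ)) (v : ↥(parabolicHoms O (GammaH (thQ θ' q)) O)),
      ((tw (formsGenS (N'' * q) (↑S : Set ℕ) l) v : ↥(parabolicHoms O (GammaH (thQ θ' q)) O)) :
          Additive (GammaH (thQ θ' q)) →+ O)
        = diaH (thQ θ' q) O (dℓ l)
            (GamH.TH (thQ θ' q) O (not_dvd_level (↑S : Set ℕ) (hS_of_hNS S hNS) hNN' l)
              (v : Additive (GammaH (thQ θ' q)) →+ O)))
    (MQ : Set ↥(parabolicHoms O (GammaH (thQ θ' q)) O))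
    (hMQ : ∀ v ∈ MQ, coresq θ' hqN O (v : Additive (GammaH (thQ θ' q)) →+ O) = 0 ∧
      coresDq θ' hqN O (v : Additive (GammaH (thQ θ' q)) →+ O) = 0)
    (t₀ : O ⊗[ℤ] ↥(heckeAlgebra (N'' * q) 2 (↑S : Set ℕ)))
    (ht₀ : ∀ (a : O), ∀ Φ ∈ (LamNew hqN'' :
        AddSubgroup (KumLevelHecke.levelData q (N'' * q) hqS hNS).Λ),
      (KumLevelHecke.levelData q (N'' * q) hqS hNS).heckeTensor O t₀ (a ⊗ₜ[ℤ] Φ) = 0) :
    ∀ v ∈ MQ, twO O tw t₀ v = 0 :=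
  ann (thQ θ' q) hθq S hqS hNS hNN' hinj Lε dℓ hadm hlev rep' hrep' hsq hnd hψ hν hc tw htw
    (coresSys' hqN'') (coresDSys' hqN'') (LamNew hqN'') (fun _ h1 h2 => ⟨h1, h2⟩) MQ
    (hcores_ann_of_new θ' hθq hqN hqN'' Lε hadm hlev rep' hrep' MQ hMQ) t₀ ht₀

end Binder

/-! ### over helper95's tower -/

section Tower

open GB.B3.TWLevel GB.B3.RealLevel
  GB.B3.HeckeActH GB.B3.TWChars GB.B3.FinalTW
  GB.B3.Tower GB.B3.StepInst GB.B3.LocTransport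
  GB.B3.LocTransportInst GB.B3.LocTransportInstD

variable {N q p N'' : ℕ} [NeZero N] [NeZero (N * q)] [NeZero (N'' * q)] [Fact q.Prime]
  [hpF : Fact p.Prime] {Kk : ℕ} {r e N' : ℕ → ℕ}
variable (Sy : Symbols (N * q)) (hrN : ∀ j, Sy.r j ∣ N) (hqN : ¬ q ∣ N)
variable {O : Type} [CommRing O] [IsDomain O] [IsPrincipalIdealRing O] [IsLocalRing O]
  [IsAdicComplete (IsLocalRing.maximalIdeal O) O] [Module.IsTorsionFree ℤ O]
variable (𝔪 : Ideal (Sy.𝕋 O)) [𝔪.IsMaximal]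
variable (H : PrimeData N p Kk r e N') {ϖ : O} {s0 : Sy.ι₁}
  (h : Plug.Hyp (restrict Sy hrN) 𝔪 p ϖ s0)
variable {K : Type} [Field K] [CharZero K] [Algebra O K]

include h hqN in
/-- **the `hcores` binder of `Ann.ann` over the tower**: `MQ` any set of `𝔪`-primary parabolic
classes of `Hom(Γ_H(thQ θ' q), O)`, `θ' = Theta (Δs p e) H.psi j`, over a zero base. -/
theorem hcores_ann_of_tower
    (hbase : ∀ y : Additive (Gamma0 N) →+ O,
      IsLoc (HeckeActH.act0 (restrict Sy hrN) O) 𝔪 y → y = 0) (j : ℕ)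
    [Fintype ((∀ i : Fin j, Δs p e i) →* Kˣ)]
    [HasEnoughRootsOfUnity K (Monoid.exponent (∀ i : Fin j, Δs p e i))]
    (hθq : Function.Surjective (thQ (Theta (Δs p e) H.psi j) q)) (hqN'' : ¬ q ∣ N'')
    (Lε : ((∀ i : Fin j, Δs p e i) →* Kˣ) → List (TwDatum K (∀ i : Fin j, Δs p e i)))
    (hadm : ∀ ε, Adm (N * q) (thQ (Theta (Δs p e) H.psi j) q) (Lε ε))
    (hlev : ∀ ε, chainLevel (N * q) (Lε ε) = N'' * q)
    (rep' : ∀ ε, (∀ i : Fin j, Δs p e i) → Gamma0 (chainLevel (N * q) (Lε ε)))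
    (hrep' : ∀ ε δ, chi (chainθ (N * q) (thQ (Theta (Δs p e) H.psi j) q) (Lε ε)) (rep' ε δ) = δ)
    (MQ : Set ↥(parabolicHoms O (GammaH (thQ (Theta (Δs p e) H.psi j) q)) O))
    (hMQ : ∀ v ∈ MQ, IsLoc (actH Sy O (thQ (Theta (Δs p e) H.psi j) q)) 𝔪
      (v : Additive (GammaH (thQ (Theta (Δs p e) H.psi j) q)) →+ O)) :
    ∀ v ∈ MQ, ∀ ε : (∀ i : Fin j, Δs p e i) →* Kˣ,
      (coresSys' hqN'').op K
        (RChainComp (thQ (Theta (Δs p e) H.psi j) q) hθq Lε hadm hlev rep' hrep' ε v) = 0 ∧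
      (coresDSys' hqN'').op K
        (RChainComp (thQ (Theta (Δs p e) H.psi j) q) hθq Lε hadm hlev rep' hrep' ε v) = 0 :=
  fun v hv ε => hcores_of_tower Sy hrN hqN 𝔪 H h hbase j hθq (Lε ε) (hadm ε) hqN'' (rep' ε)
    (hrep' ε) (hlev ε) ε (hMQ v hv)

end Tower

end GB.B10.L2.HCoresAnn

end

end Fermat.Agent.GE8.P3B
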